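/-
S33 / GAMMA-F12 (helper6), part 1: **functions `≡ (1, 1)` at the two Gauss valuations** of the function
field of `X₀(N' p)` over `ℚ̄` (`p ∤ N'`, `𝔓` a place of `ℚ̄` over `p`), and the unit normalisation
((S1) of the T2 brief) for an ARBITRARY exponent `m` (in particular `m = p ^ k`).

* `s33gOne 𝔓 f`        : `f ∈ ℚ̄((q))` is a Gauss unit with residue `1` (Gauss valuation of the cusp `∞`);
* `s33gCong 𝔓 N' h`    : the subgroup of the units `Z` of the function field with `s33gOne Z` and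
  `s33gOne (w_p Z)` (`w_p` the Atkin–Lehner involution, which exchanges the two Gauss valuations);
* `s33g_cong_of_level`  : an element of the two-valuation base `t2gpBase 𝔓 N' h H Fr` at a DVR level `H`
  with reduction `1 = (1, 1)` gives an element of `s33gCong`;
* `s33g_normalise`      : for `σ` in the inertia group, `m > 0` and a unit `Y` there is a unit `η` with
  `σ Y / (Y η ^ m) ∈ s33gCong` (no coprimality of `m` and `p`: only `m`-th roots in the residue field).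
-/
import Fermat.Agent.Lib.T2.Gal.Main

set_option autoImplicit false
set_option linter.unusedSectionVars false
set_option linter.unusedVariables false
set_option linter.style.haveILetI false
set_option synthInstance.maxHeartbeats 400000

namespace Fermat.Agent.S33

open ModularCurve HahnSeries Fermat.Agent.T1 Fermat.Agent.T2 Fermat.Agent.TW Fermat.Agent.S24Lib
  AlgebraicCurve

local notation "Qb" => AlgebraicClosure ℚ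
local notation "GQb" => (AlgebraicClosure ℚ ≃ₐ[ℚ] AlgebraicClosure ℚ)

noncomputable section

attribute [local instance] t2gp_fact t2gp_dvr t2gp_isAlgClosed t2gp_charP
attribute [local instance] t2iAlgebra t2i_isScalarTower

/-! ### Gauss units with residue `1` -/

/-- `f` is a Gauss unit with residue `1` (for the Gauss valuation of `ℚ̄((q))` attached to `𝔓`) -/
def s33gOne (𝔓 : FFPlace) (f : LaurentSeries Qb) : Prop :=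
  TbGauss 𝔓.P (IsLocalRing.residue ↥𝔓.P) f ∧ tbRhoFun 𝔓.P (IsLocalRing.residue ↥𝔓.P) f = 1

theorem s33gOne_one (𝔓 : FFPlace) : s33gOne 𝔓 1 :=
  ⟨(tbGaussSubring 𝔓.P (IsLocalRing.residue ↥𝔓.P)).one_mem, tbRhoFun_one _ _⟩

theorem s33gOne.mul {𝔓 : FFPlace} {f g : LaurentSeries Qb} (hf : s33gOne 𝔓 f) (hg : s33gOne 𝔓 g) :
    s33gOne 𝔓 (f * g) :=
  ⟨(tbGaussSubring 𝔓.P (IsLocalRing.residue ↥𝔓.P)).mul_mem hf.1 hg.1, by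
    rw [tbRhoFun_mul _ _ hf.1 hg.1, hf.2, hg.2, one_mul]⟩

theorem s33gOne.inv {𝔓 : FFPlace} {f : LaurentSeries Qb} (hf : s33gOne 𝔓 f) : s33gOne 𝔓 f⁻¹ := by
  have h0 : tbRhoFun 𝔓.P (IsLocalRing.residue ↥𝔓.P) f ≠ 0 := by rw [hf.2]; exact one_ne_zero
  exact ⟨tbGauss_inv _ _ hf.1 h0, by rw [tbRhoFun_inv _ _ hf.1 h0, hf.2, inv_one]⟩

theorem s33gOne.pow {𝔓 : FFPlace} {f : LaurentSeries Qb} (hf : s33gOne 𝔓 f) (n : ℕ) :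
    s33gOne 𝔓 (f ^ n) := by
  induction n with
  | zero => rw [pow_zero]; exact s33gOne_one 𝔓
  | succ n ih => rw [pow_succ]; exact ih.mul hf

/-- from a DVR level to `ℚ̄` -/
theorem s33g_one_of_level (𝔓 : FFPlace) (H : Subgroup 𝔓.I) {f : LaurentSeries ↥(tbFix 𝔓 H)}
    (hf : TbGauss (tbFixO 𝔓 H) (tbFixRes 𝔓 H) f)
    (h1 : tbRhoFun (tbFixO 𝔓 H) (tbFixRes 𝔓 H) f = 1) : s33gOne 𝔓 (tbPhi 𝔓 H f) :=
  ⟨tbPhi_gauss 𝔓 H hf, by rw [tbPhi_rho 𝔓 H hf, h1]⟩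

/-! ### The subgroup of the units `≡ (1, 1)` -/

variable (𝔓 : FFPlace) (N' : ℕ) [NeZero N'] (h : ¬ 𝔓.p ∣ N')

/-- the Atkin–Lehner involution on the units of the function field of `X₀(N' p)` over `ℚ̄` -/
def s33gW : (↥(modularFunctionFieldBar (N' * 𝔓.p)))ˣ →* (↥(modularFunctionFieldBar (N' * 𝔓.p)))ˣ :=
  Units.map ((t2w Qb N' 𝔓.p h : ↥(modularFunctionFieldBar (N' * 𝔓.p)) ≃ₐ[Qb]
    ↥(modularFunctionFieldBar (N' * 𝔓.p))) : ↥(modularFunctionFieldBar (N' * 𝔓.p)) →*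
      ↥(modularFunctionFieldBar (N' * 𝔓.p)))

theorem s33gW_coe (Z : (↥(modularFunctionFieldBar (N' * 𝔓.p)))ˣ) :
    ((s33gW 𝔓 N' h Z : (↥(modularFunctionFieldBar (N' * 𝔓.p)))ˣ) :
      ↥(modularFunctionFieldBar (N' * 𝔓.p))) =
    t2w Qb N' 𝔓.p h (Z : ↥(modularFunctionFieldBar (N' * 𝔓.p))) := rfl

/-- **the units `≡ (1, 1)`**: Gauss units with residue `1` at both Gauss valuations -/
def s33gCong : Subgroup (↥(modularFunctionFieldBar (N' * 𝔓.p)))ˣ where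
  carrier := {Z | s33gOne 𝔓 (((Z : (↥(modularFunctionFieldBar (N' * 𝔓.p)))ˣ) :
      ↥(modularFunctionFieldBar (N' * 𝔓.p))) : LaurentSeries Qb) ∧
    s33gOne 𝔓 (((s33gW 𝔓 N' h Z : (↥(modularFunctionFieldBar (N' * 𝔓.p)))ˣ) :
      ↥(modularFunctionFieldBar (N' * 𝔓.p))) : LaurentSeries Qb)}
  one_mem' := by
    refine ⟨?_, ?_⟩
    · rw [Units.val_one]; exact s33gOne_one 𝔓
    · rw [map_one, Units.val_one]; exact s33gOne_one 𝔓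
  mul_mem' := by
    rintro a b ⟨ha, ha'⟩ ⟨hb, hb'⟩
    refine ⟨?_, ?_⟩
    · rw [Units.val_mul]; exact ha.mul hb
    · rw [map_mul, Units.val_mul]; exact ha'.mul hb'
  inv_mem' := by
    rintro a ⟨ha, ha'⟩
    refine ⟨?_, ?_⟩
    · rw [Units.val_inv_eq_inv_val]; exact ha.inv
    · rw [map_inv, Units.val_inv_eq_inv_val]; exact ha'.inv

theorem mem_s33gCong (Z : (↥(modularFunctionFieldBar (N' * 𝔓.p)))ˣ) :
    Z ∈ s33gCong 𝔓 N' h ↔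
      s33gOne 𝔓 (((Z : (↥(modularFunctionFieldBar (N' * 𝔓.p)))ˣ) :
        ↥(modularFunctionFieldBar (N' * 𝔓.p))) : LaurentSeries Qb) ∧
      s33gOne 𝔓 ((t2w Qb N' 𝔓.p h (Z : ↥(modularFunctionFieldBar (N' * 𝔓.p))) :
        ↥(modularFunctionFieldBar (N' * 𝔓.p))) : LaurentSeries Qb) := Iff.rfl

/-! ### From the DVR levels -/

variable (H : Subgroup 𝔓.I) [H.FiniteIndex]
  (Fr : T2iFrob (IsLocalRing.ResidueField ↥𝔓.P) N' 𝔓.p)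

/-- an element of the two Gauss rings at the level `H` with both residues `1` is `≡ (1, 1)` over
`ℚ̄` -/
theorem s33g_cong_of_gauss (z : ↥(tbLevF 𝔓 (N' * 𝔓.p) H))
    (hz0 : tbPhiF 𝔓 (N' * 𝔓.p) H z ≠ 0)
    (h₁ : z ∈ (t2gpInput 𝔓 N' h H Fr).G) (h₂ : z ∈ (t2gpInput 𝔓 N' h H Fr).G₂)
    (hρ₁ : (t2gpInput 𝔓 N' h H Fr).ρ ⟨z, h₁⟩ = 1)
    (hρ₂ : (t2gpInput 𝔓 N' h H Fr).ρG₂ ⟨z, h₂⟩ = 1) :
    Units.mk0 (tbPhiF 𝔓 (N' * 𝔓.p) H z) hz0 ∈ s33gCong 𝔓 N' h := by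
  rw [mem_s33gCong, Units.val_mk0]
  refine ⟨?_, ?_⟩
  · rw [coe_tbPhiF]
    refine s33g_one_of_level 𝔓 H h₁ ?_
    have h3 : taResN (tbFixO 𝔓 H) (tbFixRes 𝔓 H) (tbFixRes_surjective 𝔓 H) (N' * 𝔓.p) ⟨z, h₁⟩ = 1 :=
      hρ₁
    rw [tbf_taResN_eq] at h3
    exact h3
  · rw [← tbPhiF_t2wLev, coe_tbPhiF]
    have h₂' : t2wLev 𝔓 H N' 𝔓.p h z ∈ (t2gpInput 𝔓 N' h H Fr).G := h₂
    refine s33g_one_of_level 𝔓 H h₂' ?_
    have h3 : taResN (tbFixO 𝔓 H) (tbFixRes 𝔓 H) (tbFixRes_surjective 𝔓 H) (N' * 𝔓.p)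
        ⟨t2wLev 𝔓 H N' 𝔓.p h z, h₂'⟩ = 1 := hρ₂
    rw [tbf_taResN_eq] at h3
    exact h3

/-- **from the two-valuation base at a DVR level to `ℚ̄`**: an element of `𝒪_H` with reduction
`1 = (1, 1)` is `≡ (1, 1)` over `ℚ̄` -/
theorem s33g_cong_of_level (z : ↥(tbLevF 𝔓 (N' * 𝔓.p) H))
    (hz0 : tbPhiF 𝔓 (N' * 𝔓.p) H z ≠ 0) (hz : z ∈ (t2gpBase 𝔓 N' h H Fr).Ov)
    (hres : (t2gpBase 𝔓 N' h H Fr).res ⟨z, hz⟩ = 1) :
    Units.mk0 (tbPhiF 𝔓 (N' * 𝔓.p) H z) hz0 ∈ s33gCong 𝔓 N' h := by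
  have hres' : (t2gpInput 𝔓 N' h H Fr).res ⟨z, hz⟩ = 1 := hres
  refine s33g_cong_of_gauss 𝔓 N' h H Fr z hz0 hz.1 hz.2 ?_ ?_
  · have h1 := (t2gpInput 𝔓 N' h H Fr).res_fst ⟨z, hz⟩
    rw [hres'] at h1
    exact h1.symm
  · have h1 := (t2gpInput 𝔓 N' h H Fr).res_snd ⟨z, hz⟩
    rw [hres'] at h1
    exact h1.symm

/-! ### Unit normalisation -/

omit [H.FiniteIndex] in
set_option maxHeartbeats 8000000 in
/-- **unit normalisation over `ℚ̄`** ((S1) of the T2 brief, for an arbitrary exponent `m > 0`): for `σ`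
in the inertia group and a unit `Y` of the function field there is a unit `η` such that
`σ Y / (Y η ^ m) ≡ (1, 1)` -/
theorem s33g_normalise (σ : 𝔓.I) (m : ℕ) (hm : 0 < m)
    (Y : (↥(modularFunctionFieldBar (N' * 𝔓.p)))ˣ) :
    ∃ η : (↥(modularFunctionFieldBar (N' * 𝔓.p)))ˣ,
      tkrSig (N' * 𝔓.p) ((σ : 𝔓.I) : GQb) Y * (Y * η ^ m)⁻¹ ∈ s33gCong 𝔓 N' h := by
  classical
  obtain ⟨H, hHfin, hHnorm, -, hT⟩ := t2gs_exists_level 𝔓 (N' * 𝔓.p) ⊤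
    {(Y : ↥(modularFunctionFieldBar (N' * 𝔓.p)))}
  haveI := hHfin
  haveI := hHnorm
  obtain ⟨fy, hfy⟩ := hT _ (Finset.mem_singleton_self _)
  have hfy0 : fy ≠ 0 := by
    rintro rfl
    rw [map_zero] at hfy
    exact Y.ne_zero hfy.symm
  have hunit := t2gp_unit (tbFixO 𝔓 H) (tbFixRes 𝔓 H) (tbFixRes_surjective 𝔓 H)
    (t2gp_natCast_ne_zero 𝔓 N' h) (t2gpW 𝔓 N' h H) (t2gmFrob 𝔓 N')
  have hnorm := t2gp_norm (tbFixO 𝔓 H) (tbFixRes 𝔓 H) (tbFixRes_surjective 𝔓 H)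
    (t2gp_natCast_ne_zero 𝔓 N' h) (t2gpW 𝔓 N' h H) (t2gmFrob 𝔓 N')
  obtain ⟨e, he₁, he₂, hρe₁, hρe₂⟩ := t2gp_exists_e (tbFixO 𝔓 H) (tbFixRes 𝔓 H)
    (tbFixRes_surjective 𝔓 H) (t2gp_natCast_ne_zero 𝔓 N' h) (t2gpW 𝔓 N' h H) (t2gmFrob 𝔓 N')
  obtain ⟨hh, hh0, hhG₁, hhG₂, hhi₁, hhi₂, hz₁, hz₂, hρz₁, hρz₂⟩ :=
    t2g_normalise (t2gpBase 𝔓 N' h H (t2gmFrob 𝔓 N')).A (t2gpBase 𝔓 N' h H (t2gmFrob 𝔓 N')).resA
      (t2gpBase 𝔓 N' h H (t2gmFrob 𝔓 N')).resA_surj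
      (t2gpInput 𝔓 N' h H (t2gmFrob 𝔓 N')).G (t2gpInput 𝔓 N' h H (t2gmFrob 𝔓 N')).ρ
      (t2gpInput 𝔓 N' h H (t2gmFrob 𝔓 N')).G₂ (t2gpInput 𝔓 N' h H (t2gmFrob 𝔓 N')).ρG₂
      (fun a => ((t2gpInput 𝔓 N' h H (t2gmFrob 𝔓 N')).algebraMap_mem_Ov a).1)
      (fun a => (t2gpInput 𝔓 N' h H (t2gmFrob 𝔓 N')).ρ_algebraMap a _)
      hunit hnorm
      (fun a => (t2gpInput 𝔓 N' h H (t2gmFrob 𝔓 N')).algebraMap_mem_G₂ a)
      (fun a => (t2gpInput 𝔓 N' h H (t2gmFrob 𝔓 N')).ρG₂_algebraMap a)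
      ((t2gpInput 𝔓 N' h H (t2gmFrob 𝔓 N')).inv_mem_G₂ hunit)
      ((t2gpInput 𝔓 N' h H (t2gmFrob 𝔓 N')).normalize_G₂ hnorm)
      (t2gsF 𝔓 H σ (N' * 𝔓.p)) (t2gsL 𝔓 H σ : ↥(tbFix 𝔓 H) ≃+* ↥(tbFix 𝔓 H))
      (t2gsF_algebraMap 𝔓 H σ (N' * 𝔓.p)) (fun c hc => t2gsL_div_mem 𝔓 H σ c hc)
      (t2gp_sigma_G 𝔓 N' h H (t2gmFrob 𝔓 N') σ) (t2gp_sigma_ρ 𝔓 N' h H (t2gmFrob 𝔓 N') σ)
      (t2gp_sigma_G₂ 𝔓 N' h H (t2gmFrob 𝔓 N') σ) (t2gp_sigma_ρG₂ 𝔓 N' h H (t2gmFrob 𝔓 N') σ)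
      e he₁ he₂ hρe₁ hρe₂ m (fun c => IsAlgClosed.exists_pow_nat_eq c hm) fy hfy0
  generalize hz : t2gsF 𝔓 H σ (N' * 𝔓.p) fy / (fy * hh ^ m) = z at hz₁ hz₂ hρz₁ hρz₂
  have hτfy0 : t2gsF 𝔓 H σ (N' * 𝔓.p) fy ≠ 0 := (map_ne_zero _).mpr hfy0
  have hz0 : z ≠ 0 := by
    rw [← hz]
    exact div_ne_zero hτfy0 (mul_ne_zero hfy0 (pow_ne_zero _ hh0))
  have hΦz0 : tbPhiF 𝔓 (N' * 𝔓.p) H z ≠ 0 :=
    fun h0 => hz0 (tbPhiF_injective 𝔓 (N' * 𝔓.p) H (by rw [h0, map_zero]))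
  have hη0 : tbPhiF 𝔓 (N' * 𝔓.p) H hh ≠ 0 :=
    fun h0 => hh0 (tbPhiF_injective 𝔓 (N' * 𝔓.p) H (by rw [h0, map_zero]))
  have hmem := s33g_cong_of_gauss 𝔓 N' h H (t2gmFrob 𝔓 N') z hΦz0 hz₁ hz₂ hρz₁ hρz₂
  refine ⟨Units.mk0 _ hη0, ?_⟩
  have heq : tkrSig (N' * 𝔓.p) ((σ : 𝔓.I) : GQb) Y * (Y * Units.mk0 _ hη0 ^ m)⁻¹
      = Units.mk0 (tbPhiF 𝔓 (N' * 𝔓.p) H z) hΦz0 := by
    apply Units.ext
    rw [Units.val_mk0, ← hz, map_div₀, map_mul, map_pow, tbPhiF_t2gsF, hfy, Units.val_mul,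
      Units.val_inv_eq_inv_val, Units.val_mul, Units.val_pow_eq_pow_val, Units.val_mk0,
      div_eq_mul_inv]
    rfl
  rw [heq]
  exact hmem

end

end Fermat.Agent.S33
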