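/-
S33 / GAMMA-F12 (helper6), part 2: **the subgroup `C ⊆ J₀(N' p)(ℚ̄)` of the Kummer classes of functions
`≡ (1, 1)`** (`= ker κ`, "the formal part") and **(F12)**: the inertia group at `𝔓 | p` acts trivially on
`J₀(N' p)[p^∞] / C`.

* `s33gC 𝔓 N' h : AddSubgroup (JZero (N' * 𝔓.p))` : the classes `[div Z / p ^ k]`, `Z ∈ s33gCong 𝔓 N' h`
  with `p ^ k ∣ div Z`;
* `s33g_F12` : `σ • x - x ∈ s33gC 𝔓 N' h` for `σ` in the inertia group and `p ^ k • x = 0`.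
-/
import Fermat.Agent.Lib.S33.F12.Cong
import Fermat.Agent.Lib.Alpha.Tate.Kummer

set_option autoImplicit false
set_option linter.unusedSectionVars false
set_option linter.unusedVariables false
set_option linter.style.haveILetI false
set_option synthInstance.maxHeartbeats 400000

namespace Fermat.Agent.S33

open ModularCurve HahnSeries Fermat.Agent.T1 Fermat.Agent.T2 Fermat.Agent.TW Fermat.Agent.S24Lib
  AlgebraicCurve Fermat.Agent.Alpha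

local notation "Qb" => AlgebraicClosure ℚ
local notation "GQb" => (AlgebraicClosure ℚ ≃ₐ[ℚ] AlgebraicClosure ℚ)

noncomputable section

section General

variable {K F : Type*} [Field K] [Field F] [Algebra K F] [HasPrincipalDivisors K F]

/-- the Kummer class of `y` for the exponent `m` is the Kummer class of `y ^ n` for the exponent
`M = m n` -/
theorem s33g_class_pow_mul {m n M : ℕ} (hm : m ≠ 0) (hn : n ≠ 0) (hM : M ≠ 0) (hMeq : M = m * n)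
    (y : Fˣ) (hy : ∀ v : Place K F, (m : ℤ) ∣ v.ord (y : F))
    (hy' : ∀ v : Place K F, (M : ℤ) ∣ v.ord ((y ^ n : Fˣ) : F)) :
    alpfClass hM (y ^ n) hy' = alpfClass hm y hy := by
  subst hMeq
  unfold alpfClass
  congr 1
  apply Subtype.ext
  ext v
  show alpfDivQuot (K := K) (m * n) (y ^ n) v = alpfDivQuot (K := K) m y v
  rw [alpfDivQuot_apply, alpfDivQuot_apply, Units.val_pow_eq_pow_val, ← zpow_natCast,
    v.ord_zpow]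
  obtain ⟨c, hc⟩ := hy v
  rw [hc]
  push_cast
  have hm' : (m : ℤ) ≠ 0 := by exact_mod_cast hm
  have hn' : (n : ℤ) ≠ 0 := by exact_mod_cast hn
  rw [Int.mul_ediv_cancel_left _ hm', show (n : ℤ) * ((m : ℤ) * c) = (m : ℤ) * (n : ℤ) * c by ring,
    Int.mul_ediv_cancel_left _ (mul_ne_zero hm' hn')]

/-- divisibility of the orders of a power -/
theorem s33g_dvd_pow {m n M : ℕ} (hMeq : M = m * n) (y : Fˣ)
    (hy : ∀ v : Place K F, (m : ℤ) ∣ v.ord (y : F))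
    (v : Place K F) : (M : ℤ) ∣ v.ord ((y ^ n : Fˣ) : F) := by
  subst hMeq
  rw [Units.val_pow_eq_pow_val, ← zpow_natCast, v.ord_zpow]
  push_cast
  rw [mul_comm (m : ℤ)]
  exact mul_dvd_mul_left _ (hy v)

/-- the Kummer class of an inverse -/
theorem s33g_class_inv {m : ℕ} (hm : m ≠ 0) (y : Fˣ)
    (hy : ∀ v : Place K F, (m : ℤ) ∣ v.ord (y : F))
    (hy' : ∀ v : Place K F, (m : ℤ) ∣ v.ord ((y⁻¹ : Fˣ) : F)) :
    alpfClass hm y⁻¹ hy' = -alpfClass hm y hy := by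
  have h1 : ∀ v : Place K F, (m : ℤ) ∣ v.ord ((y * y⁻¹ : Fˣ) : F) := by
    intro v
    rw [mul_inv_cancel, Units.val_one, Place.ord_one]
    exact dvd_zero _
  have h2 := alpfClass_mul hm y y⁻¹ hy hy' h1
  have h3 : alpfClass hm (y * y⁻¹) h1 = 0 := by
    have h4 := alpfClass_pow (K := K) hm (1 : Fˣ) (fun v => by
      rw [one_pow, Units.val_one, Place.ord_one]; exact dvd_zero _)
    have h5 : alpfClass hm (y * y⁻¹) h1 = alpfClass hm ((1 : Fˣ) ^ m) (fun v => by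
        rw [one_pow, Units.val_one, Place.ord_one]; exact dvd_zero _) := by
      congr 1
      rw [mul_inv_cancel, one_pow]
    rw [h5, h4]
  rw [h3] at h2
  exact eq_neg_of_add_eq_zero_right h2.symm

end General

variable (𝔓 : FFPlace) (N' : ℕ) [NeZero N'] (h : ¬ 𝔓.p ∣ N')

theorem s33g_neZero : NeZero (N' * 𝔓.p) := ⟨Nat.mul_ne_zero (NeZero.ne N') 𝔓.hp.ne_zero⟩

attribute [local instance] s33g_neZero

theorem s33g_pow_ne_zero (k : ℕ) : 𝔓.p ^ k ≠ 0 := pow_ne_zero k 𝔓.hp.ne_zero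

/-- **the formal part**: Kummer classes `[div Z / p ^ k]` of the functions `Z ≡ (1, 1)` with
`p ^ k ∣ div Z` -/
def s33gC : AddSubgroup (JZero (N' * 𝔓.p)) where
  carrier := {x | ∃ (k : ℕ) (Z : (↥(modularFunctionFieldBar (N' * 𝔓.p)))ˣ)
    (hZ : ∀ v : Place Qb ↥(modularFunctionFieldBar (N' * 𝔓.p)),
      ((𝔓.p ^ k : ℕ) : ℤ) ∣ v.ord (Z : ↥(modularFunctionFieldBar (N' * 𝔓.p)))),
    Z ∈ s33gCong 𝔓 N' h ∧ x = alpfClass (s33g_pow_ne_zero 𝔓 k) Z hZ}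
  zero_mem' := by
    refine ⟨0, 1, fun v => ?_, (s33gCong 𝔓 N' h).one_mem, ?_⟩
    · rw [Units.val_one, Place.ord_one]; exact dvd_zero _
    · have h1 := alpfClass_pow (K := Qb) (s33g_pow_ne_zero 𝔓 0)
        (1 : (↥(modularFunctionFieldBar (N' * 𝔓.p)))ˣ) (fun v => by
          rw [one_pow, Units.val_one, Place.ord_one]; exact dvd_zero _)
      simp only [one_pow] at h1
      exact h1.symm
  add_mem' := by
    rintro x x' ⟨k, Z, hZ, hZc, rfl⟩ ⟨k', Z', hZ', hZc', rfl⟩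
    have hkk : 𝔓.p ^ (k + k') = 𝔓.p ^ k * 𝔓.p ^ k' := _root_.pow_add _ _ _
    have hkk' : 𝔓.p ^ (k + k') = 𝔓.p ^ k' * 𝔓.p ^ k := by rw [← _root_.pow_add, add_comm]
    have d1 := s33g_dvd_pow (K := Qb) hkk Z hZ
    have d2 := s33g_dvd_pow (K := Qb) hkk' Z' hZ'
    have e1 := s33g_class_pow_mul (K := Qb) (s33g_pow_ne_zero 𝔓 k) (s33g_pow_ne_zero 𝔓 k')
      (s33g_pow_ne_zero 𝔓 (k + k')) hkk Z hZ d1
    have e2 := s33g_class_pow_mul (K := Qb) (s33g_pow_ne_zero 𝔓 k') (s33g_pow_ne_zero 𝔓 k)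
      (s33g_pow_ne_zero 𝔓 (k + k')) hkk' Z' hZ' d2
    have d3 : ∀ v : Place Qb ↥(modularFunctionFieldBar (N' * 𝔓.p)),
        ((𝔓.p ^ (k + k') : ℕ) : ℤ) ∣ v.ord ((Z ^ 𝔓.p ^ k' * Z' ^ 𝔓.p ^ k :
          (↥(modularFunctionFieldBar (N' * 𝔓.p)))ˣ) : ↥(modularFunctionFieldBar (N' * 𝔓.p))) := by
      intro v
      rw [Units.val_mul, Place.ord_mul v (Units.ne_zero _) (Units.ne_zero _)]
      exact dvd_add (d1 v) (d2 v)
    refine ⟨k + k', Z ^ 𝔓.p ^ k' * Z' ^ 𝔓.p ^ k, d3,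
      (s33gCong 𝔓 N' h).mul_mem ((s33gCong 𝔓 N' h).pow_mem hZc _)
        ((s33gCong 𝔓 N' h).pow_mem hZc' _), ?_⟩
    rw [alpfClass_mul (s33g_pow_ne_zero 𝔓 (k + k')) _ _ d1 d2 d3, e1, e2]
  neg_mem' := by
    rintro x ⟨k, Z, hZ, hZc, rfl⟩
    have d1 : ∀ v : Place Qb ↥(modularFunctionFieldBar (N' * 𝔓.p)),
        ((𝔓.p ^ k : ℕ) : ℤ) ∣ v.ord ((Z⁻¹ : (↥(modularFunctionFieldBar (N' * 𝔓.p)))ˣ) :
          ↥(modularFunctionFieldBar (N' * 𝔓.p))) := by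
      intro v
      rw [Units.val_inv_eq_inv_val, Place.ord_inv]
      exact (dvd_neg).mpr (hZ v)
    exact ⟨k, Z⁻¹, d1, (s33gCong 𝔓 N' h).inv_mem hZc,
      (s33g_class_inv (K := Qb) (s33g_pow_ne_zero 𝔓 k) Z hZ d1).symm⟩

theorem mem_s33gC (x : JZero (N' * 𝔓.p)) :
    x ∈ s33gC 𝔓 N' h ↔ ∃ (k : ℕ) (Z : (↥(modularFunctionFieldBar (N' * 𝔓.p)))ˣ)
      (hZ : ∀ v : Place Qb ↥(modularFunctionFieldBar (N' * 𝔓.p)),
        ((𝔓.p ^ k : ℕ) : ℤ) ∣ v.ord (Z : ↥(modularFunctionFieldBar (N' * 𝔓.p)))),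
      Z ∈ s33gCong 𝔓 N' h ∧ x = alpfClass (s33g_pow_ne_zero 𝔓 k) Z hZ := Iff.rfl

/-- **(F12)**: the inertia group acts trivially on `J₀(N' p)[p^∞]` modulo the formal part -/
theorem s33g_F12 (σ : GQb) (hσ : σ ∈ 𝔓.I) (k : ℕ) (x : JZero (N' * 𝔓.p))
    (hx : 𝔓.p ^ k • x = 0) : σ • x - x ∈ s33gC 𝔓 N' h := by
  have hm := s33g_pow_ne_zero 𝔓 k
  have hx' : ((𝔓.p ^ k : ℕ) : ℤ) • x = 0 := by rw [natCast_zsmul]; exact hx
  obtain ⟨Y, hY, rfl⟩ := alpf_exists_class hm x hx'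
  obtain ⟨η, hη⟩ := s33g_normalise 𝔓 N' h ⟨σ, hσ⟩ (𝔓.p ^ k) (Nat.pos_of_ne_zero hm) Y
  set Z := tkrSig (N' * 𝔓.p) σ Y * (Y * η ^ 𝔓.p ^ k)⁻¹ with hZdef
  have hYW : Y ∈ tWsub Qb (N' * 𝔓.p) (𝔓.p ^ k) := hY
  have hσYW : tkrSig (N' * 𝔓.p) σ Y ∈ tWsub Qb (N' * 𝔓.p) (𝔓.p ^ k) :=
    tkrSig_mem_tWsub (N' * 𝔓.p) (𝔓.p ^ k) σ hYW
  have hηW : η ^ 𝔓.p ^ k ∈ tWsub Qb (N' * 𝔓.p) (𝔓.p ^ k) := tkr_pow_mem_tWsub _ _ η
  have hYηW : Y * η ^ 𝔓.p ^ k ∈ tWsub Qb (N' * 𝔓.p) (𝔓.p ^ k) := Subgroup.mul_mem _ hYW hηW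
  have hZW : Z ∈ tWsub Qb (N' * 𝔓.p) (𝔓.p ^ k) :=
    Subgroup.mul_mem _ hσYW (Subgroup.inv_mem _ hYηW)
  refine ⟨k, Z, hZW, hη, ?_⟩
  -- `σ Y = Z * (Y * η ^ m)`
  have hprod : tkrSig (N' * 𝔓.p) σ Y = Z * (Y * η ^ 𝔓.p ^ k) := by
    rw [hZdef, inv_mul_cancel_right]
  have e1 : σ • alpfClass hm Y hY = alpfClass hm (tkrSig (N' * 𝔓.p) σ Y) hσYW := by
    rw [galois_smul_pic0_def, alpfClass_smul hm]
    congr 1
  have hprodW : ∀ v : Place Qb ↥(modularFunctionFieldBar (N' * 𝔓.p)),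
      ((𝔓.p ^ k : ℕ) : ℤ) ∣ v.ord ((Z * (Y * η ^ 𝔓.p ^ k) :
        (↥(modularFunctionFieldBar (N' * 𝔓.p)))ˣ) : ↥(modularFunctionFieldBar (N' * 𝔓.p))) :=
    Subgroup.mul_mem _ hZW hYηW
  have e2 : alpfClass hm (tkrSig (N' * 𝔓.p) σ Y) hσYW =
      alpfClass hm (Z * (Y * η ^ 𝔓.p ^ k)) hprodW := by
    congr 1
  rw [e1, e2, alpfClass_mul hm Z (Y * η ^ 𝔓.p ^ k) hZW hYηW hprodW,
    alpfClass_mul hm Y (η ^ 𝔓.p ^ k) hY hηW hYηW, alpfClass_pow hm η hηW, add_zero,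
    add_sub_cancel_right]

end

end Fermat.Agent.S33
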