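/-
S33 / GAMMA-F12 (helper6), part 3: **the `p`-torsion of the formal part**.

* `s33g_torsion`          : the elements of `s33gC` are `p`-power torsion;
* `s33g_smul_mem`         : `s33gC` is stable under the inertia group;
* `s33g_gauss_or_inv`     : valuation-ring property of the Gauss ring on the function field of `X₀(N)` over `ℚ̄`
  (any level `N`);
* `s33g_one_of_pow`       : if `f ^ (p ^ j)` is a Gauss unit with residue `1` then so is `f`
  (residue characteristic `p`);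
* `s33g_exists_kummer_p`  : **"`k = 1` suffices"**: an element of `s33gC` killed by `p` is the Kummer class
  `[div t / p]` of a function `t ≡ (1, 1)` with `p ∣ div t`.
-/
import Fermat.Agent.Lib.S33.F12.Sub

set_option autoImplicit false
set_option linter.unusedSectionVars false
set_option linter.unusedVariables false
set_option linter.style.haveILetI false
set_option synthInstance.maxHeartbeats 400000

namespace Fermat.Agent.S33

open ModularCurve HahnSeries Fermat.Agent.T1 Fermat.Agent.T2 Fermat.Agent.TW Fermat.Agent.S24Lib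
  AlgebraicCurve Fermat.Agent.Alpha Fermat.Agent.T3

local notation "Qb" => AlgebraicClosure ℚ
local notation "GQb" => (AlgebraicClosure ℚ ≃ₐ[ℚ] AlgebraicClosure ℚ)

noncomputable section

attribute [local instance] t2gp_fact t2gp_dvr t2gp_isAlgClosed t2gp_charP
attribute [local instance] t2iAlgebra t2i_isScalarTower

section General

variable {K F : Type*} [Field K] [Field F] [Algebra K F] [HasPrincipalDivisors K F]

/-- the Kummer class of `1` vanishes -/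
theorem s33g_class_one {m : ℕ} (hm : m ≠ 0)
    (h1 : ∀ v : Place K F, (m : ℤ) ∣ v.ord ((1 : Fˣ) : F)) :
    alpfClass hm (1 : Fˣ) h1 = 0 := by
  have h2 := alpfClass_pow (K := K) hm (1 : Fˣ) (fun v => by
    rw [one_pow, Units.val_one, Place.ord_one]; exact dvd_zero _)
  have h3 : alpfClass hm (1 : Fˣ) h1 = alpfClass hm ((1 : Fˣ) ^ m) (fun v => by
      rw [one_pow, Units.val_one, Place.ord_one]; exact dvd_zero _) := by
    congr 1
    rw [one_pow]
  rw [h3, h2]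

/-- the Kummer class of a power -/
theorem s33g_class_npow {m : ℕ} (hm : m ≠ 0) (y : Fˣ)
    (hy : ∀ v : Place K F, (m : ℤ) ∣ v.ord (y : F)) (n : ℕ)
    (hy' : ∀ v : Place K F, (m : ℤ) ∣ v.ord ((y ^ n : Fˣ) : F)) :
    alpfClass hm (y ^ n) hy' = n • alpfClass hm y hy := by
  induction n with
  | zero =>
    rw [zero_nsmul]
    have h3 : alpfClass hm (y ^ 0) hy' = alpfClass hm (1 : Fˣ) (fun v => by
        rw [Units.val_one, Place.ord_one]; exact dvd_zero _) := by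
      congr 1
      exact pow_zero y
    rw [h3, s33g_class_one]
  | succ n ih =>
    have hn : ∀ v : Place K F, (m : ℤ) ∣ v.ord ((y ^ n : Fˣ) : F) := by
      intro v
      rw [Units.val_pow_eq_pow_val, ← zpow_natCast, v.ord_zpow]
      exact Dvd.dvd.mul_left (hy v) _
    have hmul : ∀ v : Place K F, (m : ℤ) ∣ v.ord ((y ^ n * y : Fˣ) : F) := by
      intro v
      rw [← pow_succ]
      exact hy' v
    have h3 : alpfClass hm (y ^ (n + 1)) hy' = alpfClass hm (y ^ n * y) hmul := by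
      congr 1
      exact pow_succ y n
    rw [h3, alpfClass_mul hm (y ^ n) y hn hy hmul, ih hn, succ_nsmul]

end General

/-! ### Valuation-ring property and `p`-power roots of Gauss units with residue `1` -/

section Gauss

variable (𝔓 : FFPlace) (N : ℕ) [NeZero N]

/-- the Gauss ring of `ℚ̄((q))` induces a valuation ring on the function field of `X₀(N)` -/
theorem s33g_gauss_or_inv {f : LaurentSeries Qb} (hf : f ∈ modularFunctionFieldBar N) :
    TbGauss 𝔓.P (IsLocalRing.residue ↥𝔓.P) f ∨ TbGauss 𝔓.P (IsLocalRing.residue ↥𝔓.P) f⁻¹ := by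
  obtain ⟨H, hH, -, hT⟩ := tbd_exists_level (modularFunctionFieldFull N) 𝔓
    ({()} : Finset Unit) (fun _ => f) (fun _ _ => hf) ∅
  obtain ⟨fH, hfH, rfl⟩ := hT () (Finset.mem_singleton_self _)
  haveI := hH
  haveI : IsDiscreteValuationRing ↥(tbFixO 𝔓 H) := tbFixO_dvr 𝔓 H
  obtain ⟨ϖ, hϖ⟩ := IsDiscreteValuationRing.exists_irreducible ↥(tbFixO 𝔓 H)
  have hfrac : TaFrac (tbFixO 𝔓 H) fH := ta_frac_of_mem (tbFixO 𝔓 H) N fH hfH
  rcases ta_gauss_or_inv (π := tbFixRes 𝔓 H) (tbFixRes_surjective 𝔓 H) hϖ hfrac with hG | hG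
  · left
    have hG' : TbGauss (tbFixO 𝔓 H) (tbFixRes 𝔓 H) fH := hG
    exact tbPhi_gauss 𝔓 H hG'
  · right
    have hG' : TbGauss (tbFixO 𝔓 H) (tbFixRes 𝔓 H) fH⁻¹ := hG
    have h1 := tbPhi_gauss 𝔓 H hG'
    rwa [map_inv₀] at h1

/-- the residue of a power -/
theorem s33g_rho_pow {f : LaurentSeries Qb} (hf : TbGauss 𝔓.P (IsLocalRing.residue ↥𝔓.P) f)
    (n : ℕ) : tbRhoFun 𝔓.P (IsLocalRing.residue ↥𝔓.P) (f ^ n) =
      tbRhoFun 𝔓.P (IsLocalRing.residue ↥𝔓.P) f ^ n := by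
  have h1 := map_pow (tbRho 𝔓.P (IsLocalRing.residue ↥𝔓.P)) ⟨f, hf⟩ n
  rw [tbRho_apply, tbRho_apply] at h1
  exact h1

theorem s33g_charP_laurent : CharP (LaurentSeries (IsLocalRing.ResidueField ↥𝔓.P)) 𝔓.p :=
  charP_of_injective_ringHom
    (HahnSeries.C_injective (Γ := ℤ) (R := IsLocalRing.ResidueField ↥𝔓.P)) 𝔓.p

/-- a Gauss element whose `p ^ j`-th power has residue `1` has residue `1` -/
theorem s33g_one_of_pow_gauss {f : LaurentSeries Qb}
    (hf : TbGauss 𝔓.P (IsLocalRing.residue ↥𝔓.P) f) (j : ℕ)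
    (h : s33gOne 𝔓 (f ^ 𝔓.p ^ j)) : s33gOne 𝔓 f := by
  refine ⟨hf, ?_⟩
  haveI := s33g_charP_laurent 𝔓
  have h1 := h.2
  rw [s33g_rho_pow 𝔓 hf] at h1
  have h2 : (tbRhoFun 𝔓.P (IsLocalRing.residue ↥𝔓.P) f - 1) ^ 𝔓.p ^ j = 0 := by
    rw [sub_pow_char_pow, h1, one_pow, sub_self]
  exact sub_eq_zero.mp (pow_eq_zero_iff (pow_ne_zero j 𝔓.hp.ne_zero) |>.mp h2)

/-- **`p`-power roots**: if `f ^ (p ^ j) ≡ 1` at the Gauss valuation then `f ≡ 1` -/
theorem s33g_one_of_pow {f : LaurentSeries Qb} (hf : f ∈ modularFunctionFieldBar N) (j : ℕ)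
    (h : s33gOne 𝔓 (f ^ 𝔓.p ^ j)) : s33gOne 𝔓 f := by
  rcases s33g_gauss_or_inv 𝔓 N hf with hG | hG
  · exact s33g_one_of_pow_gauss 𝔓 hG j h
  · have h1 : s33gOne 𝔓 (f⁻¹ ^ 𝔓.p ^ j) := by
      rw [inv_pow]
      exact h.inv
    have h2 := (s33g_one_of_pow_gauss 𝔓 hG j h1).inv
    rwa [inv_inv] at h2

end Gauss

variable (𝔓 : FFPlace) (N' : ℕ) [NeZero N'] (h : ¬ 𝔓.p ∣ N')

attribute [local instance] s33g_neZero

/-- the formal part consists of `p`-power torsion -/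
theorem s33g_torsion (x : JZero (N' * 𝔓.p)) (hx : x ∈ s33gC 𝔓 N' h) : ∃ k : ℕ, 𝔓.p ^ k • x = 0 := by
  obtain ⟨k, Z, hZ, -, rfl⟩ := hx
  refine ⟨k, ?_⟩
  have h1 := alpt_class_torsion (K := Qb) (s33g_pow_ne_zero 𝔓 k) Z hZ
  rwa [natCast_zsmul] at h1

/-- the formal part is stable under the inertia group -/
theorem s33g_smul_mem (σ : GQb) (hσ : σ ∈ 𝔓.I) (x : JZero (N' * 𝔓.p))
    (hx : x ∈ s33gC 𝔓 N' h) : σ • x ∈ s33gC 𝔓 N' h := by
  obtain ⟨k, hk⟩ := s33g_torsion 𝔓 N' h x hx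
  have h1 := s33g_F12 𝔓 N' h σ hσ k x hk
  have h2 := (s33gC 𝔓 N' h).add_mem h1 hx
  rwa [sub_add_cancel] at h2

set_option maxHeartbeats 1600000 in
/-- **"`k = 1` suffices"**: an element of the formal part killed by `p` is the Kummer class
`[div t / p]` of a function `t ≡ (1, 1)` with `p ∣ div t` -/
theorem s33g_exists_kummer_p (x : JZero (N' * 𝔓.p)) (hx : x ∈ s33gC 𝔓 N' h)
    (hpx : 𝔓.p • x = 0) :
    ∃ (t : (↥(modularFunctionFieldBar (N' * 𝔓.p)))ˣ)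
      (ht : ∀ v : Place Qb ↥(modularFunctionFieldBar (N' * 𝔓.p)),
        ((𝔓.p : ℕ) : ℤ) ∣ v.ord (t : ↥(modularFunctionFieldBar (N' * 𝔓.p)))),
      t ∈ s33gCong 𝔓 N' h ∧ x = alpfClass 𝔓.hp.ne_zero t ht := by
  obtain ⟨k, Z, hZ, hZc, rfl⟩ := hx
  rcases k with _ | j
  · -- `k = 0` : `x = 0`
    have h1 := alpt_class_torsion (K := Qb) (s33g_pow_ne_zero 𝔓 0) Z hZ
    have h0 : ((𝔓.p ^ 0 : ℕ) : ℤ) = 1 := by simp
    rw [h0, one_zsmul] at h1
    refine ⟨1, fun v => ?_, (s33gCong 𝔓 N' h).one_mem, ?_⟩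
    · rw [Units.val_one, Place.ord_one]; exact dvd_zero _
    · rw [h1, s33g_class_one]
  · -- `k = j + 1`
    have hk := s33g_pow_ne_zero 𝔓 (j + 1)
    have hj := s33g_pow_ne_zero 𝔓 j
    have hZp : ∀ v : Place Qb ↥(modularFunctionFieldBar (N' * 𝔓.p)),
        ((𝔓.p ^ (j + 1) : ℕ) : ℤ) ∣ v.ord ((Z ^ 𝔓.p : (↥(modularFunctionFieldBar (N' * 𝔓.p)))ˣ) :
          ↥(modularFunctionFieldBar (N' * 𝔓.p))) := by
      intro v
      rw [Units.val_pow_eq_pow_val, ← zpow_natCast, v.ord_zpow]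
      exact Dvd.dvd.mul_left (hZ v) _
    have h1 : alpfClass hk (Z ^ 𝔓.p) hZp = 0 := by
      rw [s33g_class_npow (K := Qb) hk Z hZ 𝔓.p hZp]
      exact hpx
    obtain ⟨s, hs⟩ := (alpt_kummer_ker (N' * 𝔓.p) (𝔓.p ^ (j + 1)) hk (Z ^ 𝔓.p) hZp).mp h1
    -- the root of unity `ζ = Z / s ^ (p ^ j)`
    have hζp : (Z * (s ^ 𝔓.p ^ j)⁻¹) ^ 𝔓.p = 1 := by
      rw [mul_pow, inv_pow, ← pow_mul, ← pow_succ, hs, mul_inv_cancel]
    have hord : ∀ v : Place Qb ↥(modularFunctionFieldBar (N' * 𝔓.p)),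
        v.ord (((Z * (s ^ 𝔓.p ^ j)⁻¹ : (↥(modularFunctionFieldBar (N' * 𝔓.p)))ˣ)) :
          ↥(modularFunctionFieldBar (N' * 𝔓.p))) = 0 := by
      intro v
      have h2 : v.ord ((((Z * (s ^ 𝔓.p ^ j)⁻¹) ^ 𝔓.p : (↥(modularFunctionFieldBar (N' * 𝔓.p)))ˣ)) :
          ↥(modularFunctionFieldBar (N' * 𝔓.p))) = 0 := by
        rw [hζp, Units.val_one, Place.ord_one]
      rw [Units.val_pow_eq_pow_val, ← zpow_natCast, v.ord_zpow] at h2
      have hp0 : ((𝔓.p : ℕ) : ℤ) ≠ 0 := by exact_mod_cast 𝔓.hp.ne_zero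
      exact (mul_eq_zero.mp h2).resolve_left hp0
    obtain ⟨c, hc⟩ := t3p_const_of_ord_eq_zero (t3h_gen (N' * 𝔓.p)) hord
    have hc0 : c ≠ 0 := by
      rintro rfl
      rw [map_zero] at hc
      exact (Units.ne_zero _) hc.symm
    obtain ⟨ξ₀, hξ₀⟩ := IsAlgClosed.exists_pow_nat_eq c (Nat.pos_of_ne_zero hj)
    have hξ₀0 : ξ₀ ≠ 0 := by
      rintro rfl
      rw [zero_pow hj] at hξ₀
      exact hc0 hξ₀.symm
    have hξ0 : algebraMap Qb ↥(modularFunctionFieldBar (N' * 𝔓.p)) ξ₀ ≠ 0 :=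
      (map_ne_zero _).mpr hξ₀0
    obtain ⟨t, ht⟩ : ∃ t : (↥(modularFunctionFieldBar (N' * 𝔓.p)))ˣ, t = Units.mk0 _ hξ0 * s :=
      ⟨_, rfl⟩
    have hZt : Z = t ^ 𝔓.p ^ j := by
      apply Units.ext
      rw [ht, mul_pow, Units.val_mul, Units.val_pow_eq_pow_val, Units.val_mk0, ← map_pow, hξ₀, hc,
        ← Units.val_mul, inv_mul_cancel_right]
    have htdiv : ∀ v : Place Qb ↥(modularFunctionFieldBar (N' * 𝔓.p)),
        ((𝔓.p : ℕ) : ℤ) ∣ v.ord (t : ↥(modularFunctionFieldBar (N' * 𝔓.p))) := by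
      intro v
      have h2 := hZ v
      rw [hZt, Units.val_pow_eq_pow_val, ← zpow_natCast, v.ord_zpow, pow_succ', Nat.cast_mul,
        mul_comm ((𝔓.p : ℕ) : ℤ)] at h2
      exact (mul_dvd_mul_iff_left (by exact_mod_cast hj)).mp h2
    refine ⟨t, htdiv, ?_, ?_⟩
    · obtain ⟨hc1, hc2⟩ := (mem_s33gCong 𝔓 N' h Z).mp hZc
      rw [mem_s33gCong]
      refine ⟨s33g_one_of_pow 𝔓 (N' * 𝔓.p) (t : ↥(modularFunctionFieldBar (N' * 𝔓.p))).2 j ?_,
        s33g_one_of_pow 𝔓 (N' * 𝔓.p)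
          (t2w Qb N' 𝔓.p h (t : ↥(modularFunctionFieldBar (N' * 𝔓.p)))).2 j ?_⟩
      · have h3 : (((Z : (↥(modularFunctionFieldBar (N' * 𝔓.p)))ˣ) :
            ↥(modularFunctionFieldBar (N' * 𝔓.p))) : LaurentSeries Qb) =
            ((t : ↥(modularFunctionFieldBar (N' * 𝔓.p))) : LaurentSeries Qb) ^ 𝔓.p ^ j := by
          rw [hZt, Units.val_pow_eq_pow_val]
          rfl
        rw [← h3]
        exact hc1
      · have h3 : ((t2w Qb N' 𝔓.p h ((Z : (↥(modularFunctionFieldBar (N' * 𝔓.p)))ˣ) :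
            ↥(modularFunctionFieldBar (N' * 𝔓.p))) : ↥(modularFunctionFieldBar (N' * 𝔓.p))) :
              LaurentSeries Qb) =
            ((t2w Qb N' 𝔓.p h (t : ↥(modularFunctionFieldBar (N' * 𝔓.p))) :
              ↥(modularFunctionFieldBar (N' * 𝔓.p))) : LaurentSeries Qb) ^ 𝔓.p ^ j := by
          rw [hZt, Units.val_pow_eq_pow_val, map_pow]
          rfl
        rw [← h3]
        exact hc2
    · have hMeq : 𝔓.p ^ (j + 1) = 𝔓.p * 𝔓.p ^ j := pow_succ' _ _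
      have hy' : ∀ v : Place Qb ↥(modularFunctionFieldBar (N' * 𝔓.p)),
          ((𝔓.p ^ (j + 1) : ℕ) : ℤ) ∣ v.ord ((t ^ 𝔓.p ^ j : (↥(modularFunctionFieldBar (N' * 𝔓.p)))ˣ) :
            ↥(modularFunctionFieldBar (N' * 𝔓.p))) := by
        rw [← hZt]
        exact hZ
      have e1 := s33g_class_pow_mul (K := Qb) 𝔓.hp.ne_zero hj hk hMeq t htdiv hy'
      rw [← e1]
      congr 1

end

end Fermat.Agent.S33
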