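/-
S33 / GAMMA-F12 (helper6), part 4: **the divisor form of "`k = 1` suffices"** — the input of BRIDGE /
PTS-ABS for `V = C[p]`: every `x ∈ C` with `p x = 0` is the class of a divisor `X` of degree `0` with
`p X = div w`, where `w` and `w⁻¹` are `≡ 1` at both Gauss valuations.
-/
import Fermat.Agent.Lib.S33.F12.Tors

set_option autoImplicit false
set_option linter.unusedSectionVars false
set_option linter.unusedVariables false
set_option linter.style.haveILetI false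
set_option synthInstance.maxHeartbeats 400000

namespace Fermat.Agent.S33

open ModularCurve HahnSeries Fermat.Agent.T1 Fermat.Agent.T2 Fermat.Agent.TW Fermat.Agent.S24Lib
  AlgebraicCurve Fermat.Agent.Alpha Fermat.Agent.T3

local notation "Qb" => AlgebraicClosure ℚ
local notation "GQb" => (AlgebraicClosure ℚ ≃ₐ[ℚ] AlgebraicClosure ℚ)

noncomputable section

attribute [local instance] t2gp_fact t2gp_dvr t2gp_isAlgClosed t2gp_charP
attribute [local instance] t2iAlgebra t2i_isScalarTower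

variable (𝔓 : FFPlace) (N' : ℕ) [NeZero N'] (h : ¬ 𝔓.p ∣ N')

attribute [local instance] s33g_neZero

/-- **divisor form**: an element of the formal part killed by `p` is the class of a divisor `X` of
degree `0` with `p X = div w`, `w ≡ (1, 1)` (and `w⁻¹ ≡ (1, 1)`) -/
theorem s33g_exists_divisor (x : JZero (N' * 𝔓.p)) (hx : x ∈ s33gC 𝔓 N' h)
    (hpx : 𝔓.p • x = 0) :
    ∃ (X : Divisor.degZero (K := Qb) (F := ↥(modularFunctionFieldBar (N' * 𝔓.p))))
      (w : ↥(modularFunctionFieldBar (N' * 𝔓.p))),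
      Pic0.mk X = x ∧ w ≠ 0 ∧
      (∀ P : Place Qb ↥(modularFunctionFieldBar (N' * 𝔓.p)),
        P.ord w = ((𝔓.p : ℕ) : ℤ) * (X : Divisor Qb ↥(modularFunctionFieldBar (N' * 𝔓.p))) P) ∧
      (∀ P : Place Qb ↥(modularFunctionFieldBar (N' * 𝔓.p)),
        P.ord w = (𝔓.p • (X : Divisor Qb ↥(modularFunctionFieldBar (N' * 𝔓.p)))) P) ∧
      s33gOne 𝔓 ((w : ↥(modularFunctionFieldBar (N' * 𝔓.p))) : LaurentSeries Qb) ∧
      s33gOne 𝔓 ((t2w Qb N' 𝔓.p h w : ↥(modularFunctionFieldBar (N' * 𝔓.p))) : LaurentSeries Qb) ∧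
      s33gOne 𝔓 ((w⁻¹ : ↥(modularFunctionFieldBar (N' * 𝔓.p))) : LaurentSeries Qb) ∧
      s33gOne 𝔓 ((t2w Qb N' 𝔓.p h w⁻¹ : ↥(modularFunctionFieldBar (N' * 𝔓.p))) :
        LaurentSeries Qb) := by
  obtain ⟨t, ht, htc, rfl⟩ := s33g_exists_kummer_p 𝔓 N' h x hx hpx
  have hord : ∀ P : Place Qb ↥(modularFunctionFieldBar (N' * 𝔓.p)),
      P.ord (t : ↥(modularFunctionFieldBar (N' * 𝔓.p))) =
        ((𝔓.p : ℕ) : ℤ) * alpfDivQuot (K := Qb) 𝔓.p t P := by
    intro P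
    rw [alpfDivQuot_apply]
    exact (Int.mul_ediv_cancel' (ht P)).symm
  obtain ⟨h1, h2⟩ := (mem_s33gCong 𝔓 N' h t).mp htc
  obtain ⟨h3, h4⟩ := (mem_s33gCong 𝔓 N' h t⁻¹).mp ((s33gCong 𝔓 N' h).inv_mem htc)
  rw [Units.val_inv_eq_inv_val] at h3 h4
  refine ⟨⟨alpfDivQuot (K := Qb) 𝔓.p t, alpfDivQuot_degree 𝔓.hp.ne_zero ht⟩,
    (t : ↥(modularFunctionFieldBar (N' * 𝔓.p))), rfl, t.ne_zero, hord, ?_, h1, h2, h3, h4⟩
  intro P
  rw [hord P, Finsupp.smul_apply, nsmul_eq_mul]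

end

end Fermat.Agent.S33
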