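/-
S33 / GAMMA-F12 (helper6), part 5: **the dictionary between the congruence subgroup `s33gCong` and the
two-valuation base `s33qBase` over `(ℚ̄, 𝔓)`** (helper9's GAMMA-QB), and the input of the BRIDGE for
`V = C[p]` in the language of `s33qBase`.

* `s33g_cong_iff`      : `t ∈ s33gCong ↔ t ∈ 𝒪 ∧ res t = 1` for `𝒪 = (s33qBase 𝔓 N' h).Ov`;
* `s33g_cong_base`     : the hypothesis `hcong` of helper4's `s33w_hbr` for `d = s33qBase 𝔓 N' h`;
* `s33g_exists_divisor_base` : every `x ∈ C` with `p x = 0` is the class of a divisor `X` of degree `0`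
  with `p X = div w`, `w, w⁻¹ ∈ 𝒪`, `res w = 1`.
-/
import Fermat.Agent.Lib.S33.F12.Div
import Fermat.Agent.Lib.S33.Qb.Base

set_option autoImplicit false
set_option linter.unusedSectionVars false
set_option linter.unusedVariables false
set_option linter.style.haveILetI false
set_option synthInstance.maxHeartbeats 400000

namespace Fermat.Agent.S33

open ModularCurve HahnSeries Fermat.Agent.T1 Fermat.Agent.T2 Fermat.Agent.TW Fermat.Agent.S24Lib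
  AlgebraicCurve Fermat.Agent.Alpha Fermat.Agent.T3 Fermat.Agent.S33Q

local notation "Qb" => AlgebraicClosure ℚ
local notation "GQb" => (AlgebraicClosure ℚ ≃ₐ[ℚ] AlgebraicClosure ℚ)

noncomputable section

attribute [local instance] t2gp_fact t2gp_dvr t2gp_isAlgClosed t2gp_charP
attribute [local instance] t2iAlgebra t2i_isScalarTower

variable (𝔓 : FFPlace) (N' : ℕ) [NeZero N'] (h : ¬ 𝔓.p ∣ N')

attribute [local instance] s33g_neZero

/-- a function with both residues `1` has `res = 1` in the two-valuation base -/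
theorem s33g_res_eq_one {f : ↥(modularFunctionFieldBar (N' * 𝔓.p))}
    (h1 : s33gOne 𝔓 ((f : ↥(modularFunctionFieldBar (N' * 𝔓.p))) : LaurentSeries Qb))
    (h2 : s33gOne 𝔓 ((t2w Qb N' 𝔓.p h f : ↥(modularFunctionFieldBar (N' * 𝔓.p))) :
      LaurentSeries Qb)) :
    ∃ hf : f ∈ (s33qBase 𝔓 N' h).Ov, (s33qBase 𝔓 N' h).res ⟨f, hf⟩ = 1 := by
  have hf : f ∈ s33qOv 𝔓 N' h := (mem_s33qOv 𝔓 N' h f).mpr ⟨h1.1, h2.1⟩
  refine ⟨hf, ?_⟩
  show s33qRes 𝔓 N' h ⟨f, hf⟩ = 1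
  apply Prod.ext
  · apply Subtype.ext
    rw [coe_s33qRes_fst]
    exact h1.2
  · apply Subtype.ext
    rw [coe_s33qRes_snd]
    exact h2.2

/-- **dictionary**: the units `≡ (1, 1)` are the elements of `𝒪` with reduction `1` -/
theorem s33g_cong_iff (t : (↥(modularFunctionFieldBar (N' * 𝔓.p)))ˣ) :
    t ∈ s33gCong 𝔓 N' h ↔
      ∃ ht : (t : ↥(modularFunctionFieldBar (N' * 𝔓.p))) ∈ (s33qBase 𝔓 N' h).Ov,
        (s33qBase 𝔓 N' h).res ⟨(t : ↥(modularFunctionFieldBar (N' * 𝔓.p))), ht⟩ = 1 := by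
  constructor
  · intro ht
    obtain ⟨h1, h2⟩ := (mem_s33gCong 𝔓 N' h t).mp ht
    exact s33g_res_eq_one 𝔓 N' h h1 h2
  · rintro ⟨ht, hres⟩
    have ht' : (t : ↥(modularFunctionFieldBar (N' * 𝔓.p))) ∈ s33qOv 𝔓 N' h := ht
    obtain ⟨hG1, hG2⟩ := (mem_s33qOv 𝔓 N' h _).mp ht'
    have hres' : s33qRes 𝔓 N' h ⟨(t : ↥(modularFunctionFieldBar (N' * 𝔓.p))), ht'⟩ = 1 := hres
    rw [mem_s33gCong]
    refine ⟨⟨hG1, ?_⟩, ⟨hG2, ?_⟩⟩
    · rw [← coe_s33qRes_fst 𝔓 N' h ⟨_, ht'⟩, hres']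
      rfl
    · rw [← coe_s33qRes_snd 𝔓 N' h ⟨_, ht'⟩, hres']
      rfl

/-- the hypothesis `hcong` of `s33w_hbr` for the base `s33qBase 𝔓 N' h` -/
theorem s33g_cong_base (t : (↥(modularFunctionFieldBar (N' * 𝔓.p)))ˣ)
    (ht : t ∈ s33gCong 𝔓 N' h) :
    ∃ ht : (t : ↥(modularFunctionFieldBar (N' * 𝔓.p))) ∈ (s33qBase 𝔓 N' h).Ov,
      (s33qBase 𝔓 N' h).res ⟨(t : ↥(modularFunctionFieldBar (N' * 𝔓.p))), ht⟩ = 1 :=
  (s33g_cong_iff 𝔓 N' h t).mp ht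

/-- **the input of the BRIDGE for `C[p]`**, in the language of `s33qBase`: every `x ∈ C` with
`p x = 0` is the class of a divisor `X` of degree `0` with `p X = div w`, where `w, w⁻¹ ∈ 𝒪` and
`res w = 1` -/
theorem s33g_exists_divisor_base (x : JZero (N' * 𝔓.p)) (hx : x ∈ s33gC 𝔓 N' h)
    (hpx : 𝔓.p • x = 0) :
    ∃ (X : Divisor.degZero (K := Qb) (F := ↥(modularFunctionFieldBar (N' * 𝔓.p))))
      (w : ↥(modularFunctionFieldBar (N' * 𝔓.p))),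
      Pic0.mk X = x ∧ w ≠ 0 ∧
      (∀ P : Place Qb ↥(modularFunctionFieldBar (N' * 𝔓.p)),
        P.ord w = (𝔓.p • (X : Divisor Qb ↥(modularFunctionFieldBar (N' * 𝔓.p)))) P) ∧
      ∃ hw : w ∈ (s33qBase 𝔓 N' h).Ov, w⁻¹ ∈ (s33qBase 𝔓 N' h).Ov ∧
        (s33qBase 𝔓 N' h).res ⟨w, hw⟩ = 1 := by
  obtain ⟨X, w, hX, hw0, -, hdiv, h1, h2, h3, h4⟩ := s33g_exists_divisor 𝔓 N' h x hx hpx
  obtain ⟨hw, hres⟩ := s33g_res_eq_one 𝔓 N' h h1 h2
  obtain ⟨hw', -⟩ := s33g_res_eq_one 𝔓 N' h h3 h4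
  exact ⟨X, w, hX, hw0, hdiv, hw, hw', hres⟩

end

end Fermat.Agent.S33
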